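import Mathlib

/-!
# The special fibre of the chart is reduced (helper97; `hrad` for M6b base change, S34)

`C` a chart inside `F₀`, `V`, `V'` the two valuation rings over the Gauss valuation
(`C ⊆ V ∩ V'`), `ϖ` a uniformiser of both, `C` saturated in `V ∩ V'`.  Then `ϖ C` is a radical
ideal: the hypothesis `radical` of `H46.EisShape` / `hrad` of the base-change theorem.

* `span_isRadical_of_red` : from `C ∩ m(V) ∩ m(V') = ϖ C`;
* `span_isRadical_of_unif_sat` : from the fields `unif₁`, `unif₂`, `le`, `sat` of `H10.VGood`;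
* `span_natCast_isRadical_of_unif_sat` : the same for `ϖ = q` a natural number (unramified base),
  in the form `(Ideal.span {(q : C)}).IsRadical`.

Mathlib only.
-/

set_option autoImplicit false

namespace Fermat.Agent.S34.H97

section Radical

variable {A₀ F₀ : Type*} [CommRing A₀] [Field F₀] [Algebra A₀ F₀]

/-- if a power of `r ∈ V` is a nonunit, so is `r`. -/
theorem mem_nonunits_of_pow_mem_nonunits (V : ValuationSubring F₀) {r : F₀} (n : ℕ)
    (h : r ^ n ∈ V.nonunits) : r ∈ V.nonunits := by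
  rw [ValuationSubring.mem_nonunits_iff] at h ⊢
  by_contra hcon
  rw [not_lt] at hcon
  rw [map_pow] at h
  exact absurd h (not_lt.mpr (one_le_pow₀ hcon))

/-- **reduced special fibre**: `C ∩ m(V) ∩ m(V') = ϖ C` implies that `ϖ C` is radical. -/
theorem span_isRadical_of_red (ϖ : A₀) (C : Subalgebra A₀ F₀) (V V' : ValuationSubring F₀)
    (hCV : ∀ c ∈ C, c ∈ V) (hCV' : ∀ c ∈ C, c ∈ V')
    (hϖV : algebraMap A₀ F₀ ϖ ∈ V.nonunits) (hϖV' : algebraMap A₀ F₀ ϖ ∈ V'.nonunits)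
    (hred : ∀ c ∈ C, c ∈ V.nonunits → c ∈ V'.nonunits → ∃ d ∈ C, c = ϖ • d) :
    (Ideal.span {algebraMap A₀ ↥C ϖ}).IsRadical := by
  intro r hr
  obtain ⟨n, hn⟩ := hr
  obtain ⟨d, hd⟩ := Ideal.mem_span_singleton.mp hn
  have hF : ((r : F₀)) ^ n = algebraMap A₀ F₀ ϖ * (d : F₀) := by
    have := congrArg (Subtype.val : ↥C → F₀) hd
    simpa using this
  have key : ∀ W : ValuationSubring F₀, (∀ c ∈ C, c ∈ W) → algebraMap A₀ F₀ ϖ ∈ W.nonunits →
      (r : F₀) ∈ W.nonunits := by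
    intro W hCW hϖW
    apply mem_nonunits_of_pow_mem_nonunits W n
    rw [hF, mul_comm]
    rw [ValuationSubring.mem_nonunits_iff] at hϖW ⊢
    have hdW : W.valuation (d : F₀) ≤ 1 := (ValuationSubring.valuation_le_one_iff W _).mpr
      (hCW _ d.2)
    rw [map_mul]
    calc W.valuation (d : F₀) * W.valuation (algebraMap A₀ F₀ ϖ)
        ≤ 1 * W.valuation (algebraMap A₀ F₀ ϖ) := mul_le_mul_left hdW _
      _ = W.valuation (algebraMap A₀ F₀ ϖ) := one_mul _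
      _ < 1 := hϖW
  obtain ⟨e, he, hre⟩ := hred (r : F₀) r.2 (key V hCV hϖV) (key V' hCV' hϖV')
  rw [Ideal.mem_span_singleton]
  refine ⟨⟨e, he⟩, Subtype.ext ?_⟩
  rw [hre, Algebra.smul_def]
  rfl

/-- **reduced special fibre from the `VGood` fields**: `ϖ` a uniformiser of `V` and of `V'`,
`C ⊆ V ∩ V'` saturated. -/
theorem span_isRadical_of_unif_sat (ϖ : A₀) (hϖ0 : algebraMap A₀ F₀ ϖ ≠ 0)
    (C : Subalgebra A₀ F₀) (V V' : ValuationSubring F₀)
    (hu : ∀ y : F₀, y ∈ V.nonunits ↔ ∃ d ∈ V, y = ϖ • d)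
    (hu' : ∀ y : F₀, y ∈ V'.nonunits ↔ ∃ d ∈ V', y = ϖ • d)
    (hCV : ∀ c ∈ C, c ∈ V) (hCV' : ∀ c ∈ C, c ∈ V')
    (hsat : ∀ y : F₀, y ∈ V → y ∈ V' → ϖ • y ∈ C → y ∈ C) :
    (Ideal.span {algebraMap A₀ ↥C ϖ}).IsRadical := by
  refine span_isRadical_of_red ϖ C V V' hCV hCV'
    ((hu _).2 ⟨1, V.one_mem, by rw [Algebra.smul_def, mul_one]⟩)
    ((hu' _).2 ⟨1, V'.one_mem, by rw [Algebra.smul_def, mul_one]⟩) ?_
  intro c hc h1 h2
  obtain ⟨d₁, hd₁, e1⟩ := (hu c).1 h1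
  obtain ⟨d₂, hd₂, e2⟩ := (hu' c).1 h2
  have hdd : d₁ = d₂ := by
    have h3 : ϖ • d₁ = ϖ • d₂ := by rw [← e1, ← e2]
    rw [Algebra.smul_def, Algebra.smul_def] at h3
    exact mul_left_cancel₀ hϖ0 h3
  subst hdd
  exact ⟨d₁, hsat d₁ hd₁ hd₂ (by rw [← e1]; exact hc), e1⟩

/-- **reduced special fibre over an unramified base**: the uniformiser is the natural number
`q`; conclusion in the form `(Ideal.span {(q : C)}).IsRadical`. -/
theorem span_natCast_isRadical_of_unif_sat (q : ℕ) (hq0 : (q : F₀) ≠ 0)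
    (C : Subalgebra A₀ F₀) (V V' : ValuationSubring F₀)
    (hu : ∀ y : F₀, y ∈ V.nonunits ↔ ∃ d ∈ V, y = ((q : ℕ) : A₀) • d)
    (hu' : ∀ y : F₀, y ∈ V'.nonunits ↔ ∃ d ∈ V', y = ((q : ℕ) : A₀) • d)
    (hCV : ∀ c ∈ C, c ∈ V) (hCV' : ∀ c ∈ C, c ∈ V')
    (hsat : ∀ y : F₀, y ∈ V → y ∈ V' → ((q : ℕ) : A₀) • y ∈ C → y ∈ C) :
    (Ideal.span {((q : ℕ) : ↥C)}).IsRadical := by
  have h := span_isRadical_of_unif_sat ((q : ℕ) : A₀) (by rwa [map_natCast]) C V V' hu hu'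
    hCV hCV' hsat
  rwa [map_natCast] at h

end Radical

end Fermat.Agent.S34.H97
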