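import Fermat.Agent.S34.H97.Saturation

/-!
# `R/P1 = S/ϖ` at the component of residue degree one (helper97; suppliers of `NodeHyp.surj1` /
`NodeHyp.comap1`, Program B', S34)

Setting: `S` a domain (the level-`M` chart or its local ring at a closed point) with `ϖ` prime and
`S/ϖ` integrally closed; `V` a valuation subring of `K ⊇ S` which is the localisation of `S` at
`(ϖ)` (`hcenter`, `hloc`); `L/K` a field extension and `O₁` a valuation subring of `L` over `V` of
residue degree one (`TwoExt.res₁`).  Then every element of `L` integral over `S` is congruent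
modulo `m(O₁)` to an element of `S` (`surj1`), and `S ∩ m(O₁) = ϖ S` (`comap1`).
-/

set_option autoImplicit false

namespace Fermat.Agent.S34.H97

open Polynomial

theorem inv_mem_of_not_mem_nonunits {K : Type*} [Field K] (V : ValuationSubring K) {a : K}
    (ha : a ∈ V) (hb : a ∉ V.nonunits) : a⁻¹ ∈ V := by
  rw [ValuationSubring.mem_nonunits_iff, not_lt] at hb
  rw [← ValuationSubring.valuation_le_one_iff] at ha ⊢
  have h1 : V.valuation a = 1 := le_antisymm ha hb
  rw [map_inv₀, h1, inv_one]

/-- nonunits of `O.comap f` are the preimage of the nonunits of `O`. -/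
theorem mem_nonunits_comap_iff {K L : Type*} [Field K] [Field L] (O : ValuationSubring L)
    (f : K →+* L) (x : K) : x ∈ (O.comap f).nonunits ↔ f x ∈ O.nonunits := by
  by_cases hx : x = 0
  · subst hx
    simp only [map_zero]
    constructor <;> intro _ <;> rw [ValuationSubring.mem_nonunits_iff, map_zero] <;>
      exact zero_lt_one
  · have hfx : f x ≠ 0 := fun h => hx (f.injective (by rw [h, map_zero]))
    constructor
    · intro h
      by_contra hcon
      have hxO : f x ∈ O := ValuationSubring.mem_comap.mp (ValuationSubring.nonunits_subset h)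
      have hinv : (f x)⁻¹ ∈ O := inv_mem_of_not_mem_nonunits O hxO hcon
      have hinv' : x⁻¹ ∈ O.comap f := by
        rw [ValuationSubring.mem_comap, map_inv₀]; exact hinv
      have h1 : (1 : K) ∈ (O.comap f).nonunits := by
        have := mul_comm x⁻¹ x ▸ (show x⁻¹ * x = 1 from inv_mul_cancel₀ hx)
        rw [ValuationSubring.mem_nonunits_iff] at h ⊢
        rw [← ValuationSubring.valuation_le_one_iff] at hinv'
        calc (O.comap f).valuation 1 = (O.comap f).valuation x⁻¹ * (O.comap f).valuation x := by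
              rw [← map_mul, inv_mul_cancel₀ hx]
          _ ≤ 1 * (O.comap f).valuation x := mul_le_mul_left hinv' _
          _ = (O.comap f).valuation x := one_mul _
          _ < 1 := h
      rw [ValuationSubring.mem_nonunits_iff, map_one] at h1
      exact lt_irrefl _ h1
    · intro h
      by_contra hcon
      have hxO : x ∈ O.comap f :=
        ValuationSubring.mem_comap.mpr (ValuationSubring.nonunits_subset h)
      have hinv : x⁻¹ ∈ O.comap f := inv_mem_of_not_mem_nonunits _ hxO hcon
      have hinv' : (f x)⁻¹ ∈ O := by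
        rw [← map_inv₀]; exact ValuationSubring.mem_comap.mp hinv
      have h1 : (1 : L) ∈ O.nonunits := by
        rw [ValuationSubring.mem_nonunits_iff] at h ⊢
        rw [← ValuationSubring.valuation_le_one_iff] at hinv'
        calc O.valuation 1 = O.valuation (f x)⁻¹ * O.valuation (f x) := by
              rw [← map_mul, inv_mul_cancel₀ hfx]
          _ ≤ 1 * O.valuation (f x) := mul_le_mul_left hinv' _
          _ = O.valuation (f x) := one_mul _
          _ < 1 := h
      rw [ValuationSubring.mem_nonunits_iff, map_one] at h1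
      exact lt_irrefl _ h1

section

variable {S K L : Type*} [CommRing S] [Field K] [Algebra S K] [Field L] [Algebra K L] [Algebra S L]
  [IsScalarTower S K L]

/-- **(COMAP1)** `S ∩ m(O₁) = ϖ S`. -/
theorem dvd_of_algebraMap_mem_nonunits (V : ValuationSubring K) (O₁ : ValuationSubring L)
    (hcomap : O₁.comap (algebraMap K L) = V) (ϖ : S)
    (hcenter : ∀ s : S, algebraMap S K s ∈ V.nonunits → ϖ ∣ s)
    (s : S) (hs : algebraMap S L s ∈ O₁.nonunits) : ϖ ∣ s := by
  apply hcenter
  rw [← hcomap, mem_nonunits_comap_iff, ← IsScalarTower.algebraMap_apply]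
  exact hs

/-- **(SURJ1)** `f(O₁ | V) = 1` and `S/ϖ` integrally closed: every element of `L` integral over `S`
is congruent modulo `m(O₁)` to an element of `S`. -/
theorem exists_sub_mem_nonunits_of_isIntegral [IsDomain S]
    (V : ValuationSubring K) (O₁ : ValuationSubring L)
    (hcomap : O₁.comap (algebraMap K L) = V) (ϖ : S) [hprime : (Ideal.span {ϖ}).IsPrime]
    [IsIntegrallyClosed (S ⧸ Ideal.span {ϖ})]
    (hSV : ∀ s : S, algebraMap S K s ∈ V)
    (hϖV : algebraMap S K ϖ ∈ V.nonunits)
    (hcenter : ∀ s : S, algebraMap S K s ∈ V.nonunits → ϖ ∣ s)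
    (hloc : ∀ v ∈ V, ∃ a b : S, ¬ ϖ ∣ b ∧ v * algebraMap S K b = algebraMap S K a)
    (hres₁ : ∀ g ∈ O₁, ∃ v ∈ V, g - algebraMap K L v ∈ O₁.nonunits)
    (r : L) (hr : IsIntegral S r) : ∃ s : S, r - algebraMap S L s ∈ O₁.nonunits := by
  classical
  set f : S →+* K := algebraMap S K with hf
  set g : S →+* L := algebraMap S L with hg
  have hgf : g = (algebraMap K L).comp f := by
    ext s; exact IsScalarTower.algebraMap_apply S K L s
  have hVO : ∀ k : K, k ∈ V ↔ algebraMap K L k ∈ O₁ := fun k => by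
    rw [← hcomap, ValuationSubring.mem_comap]
  have hVO' : ∀ k : K, k ∈ V.nonunits ↔ algebraMap K L k ∈ O₁.nonunits := fun k => by
    rw [← hcomap, mem_nonunits_comap_iff]
  have hSO : ∀ s : S, g s ∈ O₁ := fun s => by
    rw [hgf]; exact (hVO _).mp (hSV s)
  obtain ⟨P, hPmonic, hPr⟩ := hr
  let φ : S →+* ↥O₁ := g.codRestrict O₁.toSubring hSO
  have hφ : (algebraMap ↥O₁ L).comp φ = g := by ext s; rfl
  have hcoe : ∀ z : ↥O₁, ((eval z (P.map φ) : ↥O₁) : L) = eval₂ g (z : L) P := by
    intro z
    have h := hom_eval₂ P φ (algebraMap ↥O₁ L) z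
    rw [hφ] at h
    rw [eval_map]
    exact h
  have hrO : r ∈ O₁ := by
    have hint : IsIntegral ↥O₁ r := by
      refine ⟨P.map φ, hPmonic.map φ, ?_⟩
      rw [eval₂_map, hφ]
      exact hPr
    obtain ⟨y, hy⟩ := IsIntegrallyClosed.isIntegral_iff.mp hint
    rw [← hy]
    exact y.2
  obtain ⟨v, hvV, hrv⟩ := hres₁ r hrO
  obtain ⟨a, b, hb, hvab⟩ := hloc v hvV
  -- `P(v) ∈ m_V`
  have hPv : eval₂ f v P ∈ V.nonunits := by
    rw [hVO']
    have h1 : algebraMap K L (eval₂ f v P) = eval₂ g (algebraMap K L v) P := by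
      rw [hom_eval₂, ← hgf]
    rw [h1]
    let x' : ↥O₁ := ⟨algebraMap K L v, (hVO v).mp hvV⟩
    let y' : ↥O₁ := ⟨r, hrO⟩
    obtain ⟨c, hc⟩ := sub_dvd_eval_sub x' y' (P.map φ)
    have h2 : ((eval x' (P.map φ) - eval y' (P.map φ) : ↥O₁) : L) = (((x' - y') * c : ↥O₁) : L) :=
      congrArg (fun z : ↥O₁ => (z : L)) hc
    have hx : ((eval x' (P.map φ) : ↥O₁) : L) = eval₂ g (algebraMap K L v) P := hcoe x'
    have hy : ((eval y' (P.map φ) : ↥O₁) : L) = 0 := (hcoe y').trans hPr
    have h3 : eval₂ g (algebraMap K L v) P = (c : L) * (algebraMap K L v - r) := by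
      have h4 : ((eval x' (P.map φ) : ↥O₁) : L) - ((eval y' (P.map φ) : ↥O₁) : L)
          = (algebraMap K L v - r) * (c : L) := h2
      rw [hx, hy, sub_zero] at h4
      rw [h4, mul_comm]
    rw [h3]
    refine mul_mem_nonunits O₁ c.2 ?_
    have : algebraMap K L v - r = -(r - algebraMap K L v) := by ring
    rw [this]
    exact neg_mem hrv
  set n := P.natDegree with hn
  set H : S := eval a (P.scaleRoots b) with hHdef
  have hH : f H = f b ^ n * eval₂ f v P := by
    have h := scaleRoots_eval₂_mul (p := P) f v b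
    rw [mul_comm (f b) v, hvab, eval₂_at_apply] at h
    exact h
  have hHdvd : ϖ ∣ H := by
    apply hcenter
    rw [hH]
    exact mul_mem_nonunits V (pow_mem (hSV b) n) hPv
  -- the quotient `S/ϖ`
  have hdom : IsDomain (S ⧸ Ideal.span {ϖ}) := Ideal.Quotient.isDomain _
  set π : S →+* S ⧸ Ideal.span {ϖ} := Ideal.Quotient.mk _ with hπ
  set ι : S ⧸ Ideal.span {ϖ} →+* FractionRing (S ⧸ Ideal.span {ϖ}) := algebraMap _ _ with hι
  have hιinj : Function.Injective ι := IsFractionRing.injective _ _
  have hπb : π b ≠ 0 := by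
    rw [Ne, hπ, Ideal.Quotient.eq_zero_iff_mem, Ideal.mem_span_singleton]; exact hb
  have hιb : ι (π b) ≠ 0 := fun h => hπb (hιinj (by rw [h, map_zero]))
  have hπH : π H = 0 := by
    rw [hπ, Ideal.Quotient.eq_zero_iff_mem, Ideal.mem_span_singleton]; exact hHdvd
  have h3 : eval (π a) ((P.map π).scaleRoots (π b)) = 0 := by
    rw [← map_scaleRoots P b π (by rw [hPmonic.leadingCoeff, map_one]; exact one_ne_zero),
      eval_map, eval₂_at_apply, hπH]
  have h4 : eval₂ ι (ι (π a) / ι (π b)) (P.map π) = 0 := by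
    have h := scaleRoots_eval₂_mul (p := P.map π) ι (ι (π a) / ι (π b)) (π b)
    rw [mul_div_cancel₀ _ hιb, eval₂_at_apply, h3, map_zero] at h
    exact (mul_eq_zero.mp h.symm).resolve_left (pow_ne_zero _ hιb)
  have hintbar : IsIntegral (S ⧸ Ideal.span {ϖ}) (ι (π a) / ι (π b)) :=
    ⟨P.map π, hPmonic.map π, h4⟩
  obtain ⟨sbar, hsbar⟩ := IsIntegrallyClosed.isIntegral_iff.mp hintbar
  obtain ⟨s, rfl⟩ := Ideal.Quotient.mk_surjective sbar
  have h5 : π (a - s * b) = 0 := by
    apply hιinj
    have h6 : ι (π s) = ι (π a) / ι (π b) := hsbar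
    rw [map_sub, map_mul, map_sub, map_mul, map_zero, h6, div_mul_cancel₀ _ hιb, sub_self]
  obtain ⟨c, hc⟩ := Ideal.mem_span_singleton.mp (Ideal.Quotient.eq_zero_iff_mem.mp h5)
  refine ⟨s, ?_⟩
  have hfb_nonunit : f b ∉ V.nonunits := fun h => hb (hcenter b h)
  have hfb : f b ≠ 0 := by
    intro h0
    apply hfb_nonunit
    rw [h0, ValuationSubring.mem_nonunits_iff, map_zero]
    exact zero_lt_one
  have hfb_inv : (f b)⁻¹ ∈ V := inv_mem_of_not_mem_nonunits V (hSV b) hfb_nonunit
  have hvs : v - f s = (f c * (f b)⁻¹) * f ϖ := by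
    have hv : v = f a * (f b)⁻¹ := by
      rw [← hvab, mul_assoc, mul_inv_cancel₀ hfb, mul_one]
    have ha : f a = f s * f b + f ϖ * f c := by
      rw [← map_mul, ← map_mul, ← map_add, ← hc]
      congr 1; ring
    rw [hv, ha]
    field_simp
    ring
  have hvs_mem : v - f s ∈ V.nonunits := by
    rw [hvs]
    exact mul_mem_nonunits V (V.mul_mem _ _ (hSV c) hfb_inv) hϖV
  have hfin : r - g s = (r - algebraMap K L v) + algebraMap K L (v - f s) := by
    rw [map_sub, hgf]
    simp
  show r - g s ∈ O₁.nonunits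
  rw [hfin]
  exact add_mem hrv ((hVO' _).mp hvs_mem)

end

end Fermat.Agent.S34.H97
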