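import Fermat.Agent.S18.H6.ChartA
import Fermat.Agent.S34.H9.SmoothChart
import Fermat.Agent.S34.H10.SatTop
import Fermat.Agent.S34.H97.ResidueOne

/-!
# The Gauss valuation ring is the chart localised at `(ϖ)` (helper97; L1-HLOC, Program B', S34)

For a descended setup `DSetup A₀ O₀ x` (S18 core 2) with chart `C = chart A₀ x`:

* `chart_loc` : every `v ∈ O₀` is `s / d` with `s, d ∈ C` and `d` a unit of `O₀`
  (`d` a polynomial in `x` with a unit coefficient): `O₀ = C_(ϖ)`;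
* `chart_loc_subtype`, `chart_loc_not_dvd`, `chart_center` : the same in the shapes of the
  hypotheses `hV` of `H36.frac2_of_res2`, `hloc` and `hcenter` of
  `H97.exists_sub_mem_nonunits_of_isIntegral`;
* `chart_surj_of_res` : **(SURJ1) at chart level.**  `L / K` an extension, `V₁` a valuation subring
  of `L` over `O₀` with residue degree one (`TwoExt.res₁`): every element of the chart of `x`
  computed in `L` is congruent modulo `m(V₁)` to an element of the chart computed in `K`;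
* `chart_comap_of_comap` : **(COMAP1) at chart level.**
-/

set_option autoImplicit false
set_option linter.unusedSectionVars false
set_option linter.style.haveILetI false

open Polynomial

noncomputable section

namespace Fermat.Agent.S34.H97

open Fermat.Agent.S18 Fermat.Agent.S18.H19

section Loc

variable {A₀ : Type*} [CommRing A₀] [IsDomain A₀] [IsDiscreteValuationRing A₀] [CharZero A₀]
  {F₀ : Type*} [Field F₀] [Algebra A₀ F₀] [FaithfulSMul A₀ F₀]

/-- **(HLOC)** `O₀ = C_(ϖ)`: every element of the Gauss valuation ring is a fraction of two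
elements of the chart whose denominator is a unit of `O₀`. -/
theorem chart_loc (ϖ : A₀) (hϖ : Irreducible ϖ) (O₀ : ValuationSubring F₀) (x : F₀)
    (hS : DSetup A₀ O₀ x) (v : F₀) (hv : v ∈ O₀) :
    ∃ d ∈ chart A₀ x, ∃ s ∈ chart A₀ x, d ∈ O₀ ∧ d⁻¹ ∈ O₀ ∧ d ≠ 0 ∧ v * d = s := by
  obtain ⟨P, hP, hPv⟩ := H6.exists_gaussUnit_mul_mem ϖ hϖ hS v hv
  obtain ⟨h1, h2⟩ := hS.gauss P hP
  have hd : aeval x P ∈ chart A₀ x := by
    rw [mem_chart_iff]
    exact isIntegral_algebraMap (x := (⟨aeval x P, by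
      rw [Algebra.adjoin_singleton_eq_range_aeval]; exact ⟨P, rfl⟩⟩ : Algebra.adjoin A₀ {x}))
  have hd0 : aeval x P ≠ 0 := by
    obtain ⟨i, hi⟩ := hP
    intro h0
    have := (transcendental_iff.mp hS.transc) P h0
    rw [this, coeff_zero] at hi
    exact not_isUnit_zero hi
  exact ⟨aeval x P, hd, aeval x P * v, hPv, h1, h2, hd0, mul_comm _ _⟩

/-- a unit of a valuation subring is not a nonunit. -/
theorem not_mem_nonunits_of_inv_mem {K : Type*} [Field K] (V : ValuationSubring K) {d : K}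
    (hd0 : d ≠ 0) (hd' : d⁻¹ ∈ V) : d ∉ V.nonunits := by
  intro h
  have h1 : d * d⁻¹ ∈ V.nonunits := by
    rw [ValuationSubring.mem_nonunits_iff] at h ⊢
    rw [← ValuationSubring.valuation_le_one_iff] at hd'
    calc V.valuation (d * d⁻¹) = V.valuation d * V.valuation d⁻¹ := map_mul _ _ _
      _ ≤ V.valuation d * 1 := mul_le_mul_right hd' _
      _ = V.valuation d := mul_one _
      _ < 1 := h
  rw [mul_inv_cancel₀ hd0, ValuationSubring.mem_nonunits_iff, map_one] at h1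
  exact lt_irrefl _ h1

/-- **(HLOC)**, subtype form: the hypothesis `hV` of `H36.frac2_of_res2` for
`S = chart A₀ x`, `iS = algebraMap S F₀` (the inclusion). -/
theorem chart_loc_subtype (ϖ : A₀) (hϖ : Irreducible ϖ) (O₀ : ValuationSubring F₀) (x : F₀)
    (hS : DSetup A₀ O₀ x) (v : F₀) (hv : v ∈ O₀) :
    ∃ d s : ↥(chart A₀ x), algebraMap ↥(chart A₀ x) F₀ d ∉ O₀.nonunits ∧
      v * algebraMap ↥(chart A₀ x) F₀ d = algebraMap ↥(chart A₀ x) F₀ s := by
  obtain ⟨d, hd, s, hs, -, hd', hd0, hvd⟩ := chart_loc ϖ hϖ O₀ x hS v hv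
  exact ⟨⟨d, hd⟩, ⟨s, hs⟩, not_mem_nonunits_of_inv_mem O₀ hd0 hd', hvd⟩

/-- **(HCENTER)** `C ∩ m(O₀) = ϖ C`, divisibility form. -/
theorem chart_center (ϖ : A₀) (hϖ : Irreducible ϖ) (O₀ : ValuationSubring F₀) (x : F₀)
    (hS : DSetup A₀ O₀ x) (s : ↥(chart A₀ x))
    (hs : algebraMap ↥(chart A₀ x) F₀ s ∈ O₀.nonunits) :
    algebraMap A₀ ↥(chart A₀ x) ϖ ∣ s := by
  obtain ⟨c, hc, hsc⟩ := H6.chart_mem_nonunits ϖ hϖ O₀ x hS (s : F₀) s.2 hs
  refine ⟨⟨c, hc⟩, Subtype.ext ?_⟩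
  rw [hsc, Algebra.smul_def]
  rfl

/-- the uniformiser is a nonunit of `O₀`. -/
theorem unif_mem_nonunits (ϖ : A₀) (hϖ : Irreducible ϖ) (O₀ : ValuationSubring F₀) (x : F₀)
    (hS : DSetup A₀ O₀ x) : algebraMap A₀ F₀ ϖ ∈ O₀.nonunits := by
  by_contra h
  exact H6.irreducible_inv_notMem ϖ hϖ hS
    (inv_mem_of_not_mem_nonunits O₀ (H6.algebraMap_mem hS ϖ) h)

/-- **(HLOC)**, divisibility form: the hypothesis `hloc` of
`H97.exists_sub_mem_nonunits_of_isIntegral` for `S = chart A₀ x`. -/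
theorem chart_loc_not_dvd (ϖ : A₀) (hϖ : Irreducible ϖ) (O₀ : ValuationSubring F₀) (x : F₀)
    (hS : DSetup A₀ O₀ x) (v : F₀) (hv : v ∈ O₀) :
    ∃ a b : ↥(chart A₀ x), ¬ algebraMap A₀ ↥(chart A₀ x) ϖ ∣ b ∧
      v * algebraMap ↥(chart A₀ x) F₀ b = algebraMap ↥(chart A₀ x) F₀ a := by
  obtain ⟨d, s, hd, hvd⟩ := chart_loc_subtype ϖ hϖ O₀ x hS v hv
  refine ⟨s, d, ?_, hvd⟩
  rintro ⟨c, rfl⟩
  apply hd
  rw [map_mul]
  have h1 : algebraMap ↥(chart A₀ x) F₀ (algebraMap A₀ ↥(chart A₀ x) ϖ) = algebraMap A₀ F₀ ϖ :=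
    rfl
  rw [h1]
  exact H85.nonunits_mul_mem O₀ (unif_mem_nonunits ϖ hϖ O₀ x hS)
    (H6.chart_le O₀ x hS _ c.2)

end Loc

section Two

variable {A₀ : Type*} [CommRing A₀] [IsDomain A₀] [IsDiscreteValuationRing A₀] [CharZero A₀]
  {K L : Type*} [Field K] [Field L] [Algebra A₀ K] [Algebra A₀ L] [Algebra K L]
  [IsScalarTower A₀ K L] [FaithfulSMul A₀ K]

/-- **(COMAP1) at chart level**: an element of the level-`M'` chart lying in `m(V₁)` is divisible
by `ϖ` in the chart. -/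
theorem chart_comap_of_comap (ϖ : A₀) (hϖ : Irreducible ϖ) (O₀ : ValuationSubring K) (x : K)
    (hS : DSetup A₀ O₀ x) (V₁ : ValuationSubring L) (hc₁ : V₁.comap (algebraMap K L) = O₀)
    (s : K) (hs : s ∈ chart A₀ x) (hsV : algebraMap K L s ∈ V₁.nonunits) :
    ∃ s' ∈ chart A₀ x, s = ϖ • s' := by
  refine H6.chart_mem_nonunits ϖ hϖ O₀ x hS s hs ?_
  rw [← hc₁, mem_nonunits_comap_iff]
  exact hsV

/-- **(SURJ1) at chart level**: residue degree one of `V₁` over the Gauss valuation ring `O₀`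
gives: every element of the chart of `x` computed in `L` is congruent modulo `m(V₁)` to an
element of the chart computed in `K`. -/
theorem chart_surj_of_res (ϖ : A₀) (hϖ : Irreducible ϖ) (O₀ : ValuationSubring K) (x : K)
    (hS : DSetup A₀ O₀ x) (V₁ : ValuationSubring L) (hc₁ : V₁.comap (algebraMap K L) = O₀)
    (hres₁ : ∀ g ∈ V₁, ∃ v ∈ O₀, g - algebraMap K L v ∈ V₁.nonunits)
    (c : L) (hc : c ∈ chart A₀ (algebraMap K L x)) :
    ∃ s ∈ chart A₀ x, c - algebraMap K L s ∈ V₁.nonunits := by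
  haveI hded := H9.chart_dedekind ϖ hϖ O₀ x hS
  haveI hprime : (Ideal.span {algebraMap A₀ ↥(chart A₀ x) ϖ}).IsPrime :=
    (Ideal.Quotient.isDomain_iff_prime _).mp inferInstance
  obtain ⟨s, hs⟩ := exists_sub_mem_nonunits_of_isIntegral (S := ↥(chart A₀ x)) O₀ V₁ hc₁
    (algebraMap A₀ ↥(chart A₀ x) ϖ)
    (fun s => H6.chart_le O₀ x hS _ s.2)
    (unif_mem_nonunits ϖ hϖ O₀ x hS)
    (fun s hs => chart_center ϖ hϖ O₀ x hS s hs)
    (fun v hv => chart_loc_not_dvd ϖ hϖ O₀ x hS v hv)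
    hres₁ c (H10.isIntegral_of_mem_chart_map x hc)
  exact ⟨(s : K), s.2, hs⟩

end Two

/-- A ring isomorphic to a Dedekind domain is a Dedekind domain. -/
theorem isDedekindDomain_of_ringEquiv {A B : Type*} [CommRing A] [CommRing B] [IsDedekindDomain A]
    (e : A ≃+* B) : IsDedekindDomain B := by
  haveI : IsDomain B := MulEquiv.isDomain A e.symm.toMulEquiv
  haveI : IsNoetherianRing B := isNoetherianRing_of_ringEquiv A e
  haveI : IsIntegrallyClosed B := IsIntegrallyClosed.of_equiv e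
  haveI : Ring.DimensionLEOne B := by
    refine ⟨fun {p} hp hpp => ?_⟩
    have h1 : (p.comap (e : A →+* B)).IsPrime := Ideal.comap_isPrime _ p
    have h2 : p.comap (e : A →+* B) ≠ ⊥ := by
      intro h
      apply hp
      rw [eq_bot_iff]
      intro b hb
      have : e.symm b ∈ p.comap (e : A →+* B) := by
        rw [Ideal.mem_comap]; simpa using hb
      rw [h, Ideal.mem_bot] at this
      rw [Ideal.mem_bot]
      simpa using congrArg e this
    have h3 : (p.comap (e : A →+* B)).IsMaximal := Ring.DimensionLEOne.maximalOfPrime h2 h1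
    have h4 : p = (p.comap (e : A →+* B)).map (e : A →+* B) :=
      (Ideal.map_comap_of_surjective _ e.surjective p).symm
    rw [h4]
    exact Ideal.map_isMaximal_of_equiv e
  exact { }

section Image

variable {A₀ : Type*} [CommRing A₀] [IsDomain A₀] [IsDiscreteValuationRing A₀] [CharZero A₀]
  {K L : Type*} [Field K] [Field L] [Algebra A₀ K] [Algebra A₀ L] [Algebra K L]
  [IsScalarTower A₀ K L] [FaithfulSMul A₀ K]

/-- The image in `L` of the chart of `x` computed in `K` lies in the chart of `x` computed in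
`L`. -/
theorem chartImage_le (x : K) :
    (chart A₀ x).map (IsScalarTower.toAlgHom A₀ K L) ≤ chart A₀ (algebraMap K L x) := by
  rintro y ⟨s, hs, rfl⟩
  exact H10.mem_chart_map_of_isIntegral x
    (isIntegral_algebraMap (R := ↥(chart A₀ x)) (A := L) (x := ⟨s, hs⟩))

/-- The special fibre of the image of the level-`M'` chart is a Dedekind domain: the hypothesis
`hSded` of `H9.pointUFD_of_oneComp` for `S = ` the image of the level-`M'` chart. -/
theorem chartImage_dedekind (ϖ : A₀) (hϖ : Irreducible ϖ) (O₀ : ValuationSubring K) (x : K)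
    (hS : DSetup A₀ O₀ x) :
    IsDedekindDomain (↥((chart A₀ x).map (IsScalarTower.toAlgHom A₀ K L)) ⧸
      Ideal.span {algebraMap A₀ ↥((chart A₀ x).map (IsScalarTower.toAlgHom A₀ K L)) ϖ}) := by
  haveI hded := H9.chart_dedekind ϖ hϖ O₀ x hS
  let e : ↥(chart A₀ x) ≃ₐ[A₀] ↥((chart A₀ x).map (IsScalarTower.toAlgHom A₀ K L)) :=
    (chart A₀ x).equivMapOfInjective (IsScalarTower.toAlgHom A₀ K L)
      (algebraMap K L).injective
  refine isDedekindDomain_of_ringEquiv
    (Ideal.quotientEquiv (Ideal.span {algebraMap A₀ ↥(chart A₀ x) ϖ})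
      (Ideal.span {algebraMap A₀ ↥((chart A₀ x).map (IsScalarTower.toAlgHom A₀ K L)) ϖ})
      e.toRingEquiv ?_)
  rw [Ideal.map_span, Set.image_singleton]
  congr 2
  exact (e.commutes ϖ).symm

/-- **(SURJ1)** for the image subalgebra: the hypothesis `hsurj` of `H9.pointUFD_of_oneComp`. -/
theorem chartImage_surj (ϖ : A₀) (hϖ : Irreducible ϖ) (O₀ : ValuationSubring K) (x : K)
    (hS : DSetup A₀ O₀ x) (V₁ : ValuationSubring L) (hc₁ : V₁.comap (algebraMap K L) = O₀)
    (hres₁ : ∀ g ∈ V₁, ∃ v ∈ O₀, g - algebraMap K L v ∈ V₁.nonunits)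
    (c : L) (hc : c ∈ chart A₀ (algebraMap K L x)) :
    ∃ s ∈ (chart A₀ x).map (IsScalarTower.toAlgHom A₀ K L), c - s ∈ V₁.nonunits := by
  obtain ⟨s, hs, hcs⟩ := chart_surj_of_res ϖ hϖ O₀ x hS V₁ hc₁ hres₁ c hc
  exact ⟨algebraMap K L s, ⟨s, hs, rfl⟩, hcs⟩

/-- **(COMAP1)** for the image subalgebra: `S ∩ m(V₁) = ϖ S`. -/
theorem chartImage_comap (ϖ : A₀) (hϖ : Irreducible ϖ) (O₀ : ValuationSubring K) (x : K)
    (hS : DSetup A₀ O₀ x) (V₁ : ValuationSubring L) (hc₁ : V₁.comap (algebraMap K L) = O₀)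
    (s : L) (hs : s ∈ (chart A₀ x).map (IsScalarTower.toAlgHom A₀ K L))
    (hsV : s ∈ V₁.nonunits) :
    ∃ s' ∈ (chart A₀ x).map (IsScalarTower.toAlgHom A₀ K L), s = ϖ • s' := by
  obtain ⟨s₀, hs₀, rfl⟩ := hs
  obtain ⟨t, ht, hst⟩ := chart_comap_of_comap ϖ hϖ O₀ x hS V₁ hc₁ s₀ hs₀ hsV
  refine ⟨algebraMap K L t, ⟨t, ht, rfl⟩, ?_⟩
  show algebraMap K L s₀ = ϖ • algebraMap K L t
  rw [hst, Algebra.smul_def, Algebra.smul_def, map_mul, ← IsScalarTower.algebraMap_apply]

end Image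

end Fermat.Agent.S34.H97
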