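import Mathlib

/-!
# Principal ideals of a normal noetherian domain are unmixed (helper97; leaf (G5-RED) of Program B', S34)

Mathlib-only supplier of the hypothesis `NodeHyp.inf_eq : P1 ⊓ P2 = span {q}` ("the special fibre is
reduced, with the two components `P1`, `P2`") of the abstract node package.

* `maximalIdeal_isPrincipal_of_colon` : local form — in a noetherian integrally closed local domain,
  if `m·d ⊆ (ϖ)` and `d ∉ (ϖ)` then `m` is principal.
* `mem_minimalPrimes_of_colon` : a prime of the form `((ϖ) : d)` is minimal over `(ϖ)`.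
* `mem_span_singleton_of_forall_minimalPrimes` : (KRULL) membership in `(ϖ)` is detected at the
  minimal primes over `(ϖ)`.
* `inf_eq_span_singleton` : (RED) two minimal primes, `e = 1` at both ⟹ `P1 ⊓ P2 = (ϖ)`.
-/

set_option autoImplicit false

namespace Fermat.Agent.S34.H97

open Ideal IsLocalRing

/-- Local form: in a noetherian integrally closed local domain `A`, if `ϖ ∣ z * d` for every `z` in the
maximal ideal while `ϖ ∤ d`, then the maximal ideal is principal. -/
theorem maximalIdeal_isPrincipal_of_colon {A : Type*} [CommRing A] [IsDomain A] [IsLocalRing A]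
    [IsNoetherianRing A] [IsIntegrallyClosed A] (ϖ d : A) (hϖ : ϖ ≠ 0)
    (hϖm : ϖ ∈ maximalIdeal A) (h1 : ∀ z ∈ maximalIdeal A, ϖ ∣ z * d) (h2 : ¬ ϖ ∣ d) :
    (maximalIdeal A).IsPrincipal := by
  classical
  have hd : d ≠ 0 := fun h => h2 (h ▸ dvd_zero _)
  by_cases hcase : ∃ z ∈ maximalIdeal A, ∃ u, z * d = ϖ * u ∧ IsUnit u
  · obtain ⟨z, hz, u, hzu, hu⟩ := hcase
    refine ⟨⟨z, ?_⟩⟩
    apply le_antisymm
    · intro w hw
      obtain ⟨v, hv⟩ := h1 w hw
      obtain ⟨u', rfl⟩ := hu
      have hwu : w * (u' : A) = z * v := by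
        apply mul_right_cancel₀ hd
        calc w * (u' : A) * d = (w * d) * u' := by ring
          _ = ϖ * v * u' := by rw [hv]
          _ = (ϖ * u') * v := by ring
          _ = z * d * v := by rw [hzu]
          _ = z * v * d := by ring
      rw [Ideal.submodule_span_eq, Ideal.mem_span_singleton]
      refine ⟨v * ((u'⁻¹ : Aˣ) : A), ?_⟩
      calc w = w * (u' : A) * ((u'⁻¹ : Aˣ) : A) := by
            rw [mul_assoc, Units.mul_inv, mul_one]
        _ = z * (v * ((u'⁻¹ : Aˣ) : A)) := by rw [hwu]; ring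
    · rw [Ideal.submodule_span_eq, Ideal.span_le, Set.singleton_subset_iff]
      exact hz
  · exfalso
    push Not at hcase
    let K := FractionRing A
    let y : K := algebraMap A K d / algebraMap A K ϖ
    have hϖK : algebraMap A K ϖ ≠ 0 := by
      simpa using (IsFractionRing.injective A K).ne hϖ
    have hint : IsIntegral A y := by
      refine isIntegral_of_smul_mem_submodule (M := K)
        (Submodule.map (Algebra.linearMap A K) (maximalIdeal A)) ?_ ?_ y ?_
      · intro hbot
        have : algebraMap A K ϖ ∈ Submodule.map (Algebra.linearMap A K) (maximalIdeal A) :=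
          ⟨ϖ, hϖm, rfl⟩
        rw [hbot, Submodule.mem_bot] at this
        exact hϖK this
      · exact Submodule.FG.map _ (IsNoetherian.noetherian (maximalIdeal A))
      · rintro n ⟨z, hz, rfl⟩
        obtain ⟨v, hv⟩ := h1 z hz
        have hvm : v ∈ maximalIdeal A := by
          rw [IsLocalRing.mem_maximalIdeal, mem_nonunits_iff]
          exact hcase z hz v hv
        refine ⟨v, hvm, ?_⟩
        show algebraMap A K v = algebraMap A K d / algebraMap A K ϖ * algebraMap A K z
        have : algebraMap A K z * algebraMap A K d = algebraMap A K ϖ * algebraMap A K v := by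
          rw [← map_mul, ← map_mul, hv]
        rw [div_mul_eq_mul_div, eq_div_iff hϖK]
        linear_combination -this
    obtain ⟨a, ha⟩ := IsIntegrallyClosed.isIntegral_iff.mp hint
    apply h2
    refine ⟨a, ?_⟩
    apply IsFractionRing.injective A K
    rw [map_mul, ha]
    show algebraMap A K d = algebraMap A K ϖ * (algebraMap A K d / algebraMap A K ϖ)
    rw [mul_div_cancel₀ _ hϖK]

/-- A prime of the form `((ϖ) : d)` in a noetherian integrally closed domain is minimal over `(ϖ)`
(associated primes of principal ideals have height one). -/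
theorem mem_minimalPrimes_of_colon {R : Type*} [CommRing R] [IsDomain R] [IsNoetherianRing R]
    [IsIntegrallyClosed R] (ϖ d : R) (hϖ : ϖ ≠ 0) (P : Ideal R) [hP : P.IsPrime]
    (hmem : ∀ r, r ∈ P ↔ ϖ ∣ r * d) :
    P ∈ (Ideal.span {ϖ}).minimalPrimes := by
  classical
  let A := Localization.AtPrime P
  have hinj : Function.Injective (algebraMap R A) :=
    IsLocalization.injective A P.primeCompl_le_nonZeroDivisors
  have hϖP : ϖ ∈ P := (hmem ϖ).mpr ⟨d, rfl⟩
  have hϖ' : algebraMap R A ϖ ≠ 0 := by simpa using hinj.ne hϖ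
  have hϖm : algebraMap R A ϖ ∈ maximalIdeal A :=
    (IsLocalization.AtPrime.to_map_mem_maximal_iff A P ϖ).mpr hϖP
  have h1 : ∀ z ∈ maximalIdeal A, algebraMap R A ϖ ∣ z * algebraMap R A d := by
    intro z hz
    obtain ⟨⟨a, s⟩, has⟩ := IsLocalization.surj P.primeCompl z
    simp only at has
    have haP : a ∈ P := by
      rw [← IsLocalization.AtPrime.to_map_mem_maximal_iff A P a, ← has]
      exact Ideal.mul_mem_right _ _ hz
    obtain ⟨r, hr⟩ := (hmem a).mp haP
    obtain ⟨us, hus⟩ := IsLocalization.map_units A s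
    refine ⟨algebraMap R A r * ((us⁻¹ : Aˣ) : A), ?_⟩
    have h3 : z * algebraMap R A d * (us : A) = algebraMap R A ϖ * algebraMap R A r := by
      rw [hus, ← map_mul, ← hr, map_mul, ← has]; ring
    calc z * algebraMap R A d = z * algebraMap R A d * (us : A) * ((us⁻¹ : Aˣ) : A) := by
          rw [mul_assoc (z * _), Units.mul_inv, mul_one]
      _ = algebraMap R A ϖ * (algebraMap R A r * ((us⁻¹ : Aˣ) : A)) := by rw [h3]; ring
  have h2 : ¬ algebraMap R A ϖ ∣ algebraMap R A d := by
    rintro ⟨w, hw⟩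
    obtain ⟨⟨b, t⟩, hbt⟩ := IsLocalization.surj P.primeCompl w
    simp only at hbt
    have : algebraMap R A ((t : R) * d) = algebraMap R A (ϖ * b) := by
      rw [map_mul, map_mul, hw, ← hbt]; ring
    have htd : (t : R) * d = ϖ * b := hinj this
    exact t.2 ((hmem t).mpr ⟨b, htd⟩)
  have : IsNoetherianRing A := IsLocalization.isNoetherianRing P.primeCompl A inferInstance
  have : IsIntegrallyClosed A :=
    isIntegrallyClosed_of_isLocalization A P.primeCompl P.primeCompl_le_nonZeroDivisors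
  have hprin := maximalIdeal_isPrincipal_of_colon (algebraMap R A ϖ) (algebraMap R A d) hϖ' hϖm h1 h2
  have htfae : (maximalIdeal A).IsPrincipal →
      (IsIntegrallyClosed A ∧ ∀ Q : Ideal A, Q ≠ ⊥ → Q.IsPrime → Q = maximalIdeal A) :=
    ((tfae_of_isNoetherianRing_of_isLocalRing_of_isDomain A).out 4 3).mp
  have huniq : ∀ Q : Ideal A, Q ≠ ⊥ → Q.IsPrime → Q = maximalIdeal A := (htfae hprin).2
  refine ⟨⟨hP, ?_⟩, ?_⟩
  · rw [Ideal.span_le, Set.singleton_subset_iff]; exact hϖP
  · rintro Q ⟨hQ, hQϖ⟩ hQP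
    have hdisj : Disjoint (P.primeCompl : Set R) (Q : Set R) := by
      rw [Set.disjoint_left]
      intro x hx hxQ
      exact hx (hQP hxQ)
    have hQ' : (Q.map (algebraMap R A)).IsPrime :=
      IsLocalization.isPrime_of_isPrime_disjoint P.primeCompl A Q hQ hdisj
    have hQne : Q.map (algebraMap R A) ≠ ⊥ := by
      intro hbot
      have : algebraMap R A ϖ ∈ Q.map (algebraMap R A) :=
        Ideal.mem_map_of_mem _ (hQϖ (Ideal.mem_span_singleton_self ϖ))
      rw [hbot, Ideal.mem_bot] at this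
      exact hϖ' this
    have hQmax := huniq _ hQne hQ'
    have h3 : (Q.map (algebraMap R A)).comap (algebraMap R A) = Q :=
      IsLocalization.under_map_of_isPrime_disjoint P.primeCompl A hQ hdisj
    have h4 : (maximalIdeal A).comap (algebraMap R A) = P :=
      IsLocalization.AtPrime.under_maximalIdeal A P
    rw [← h4, ← hQmax, h3]

/-- **(KRULL)** In a noetherian integrally closed domain, membership in a principal ideal `(ϖ)` is
detected at the minimal primes over `(ϖ)`. -/
theorem mem_span_singleton_of_forall_minimalPrimes {R : Type*} [CommRing R] [IsDomain R]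
    [IsNoetherianRing R] [IsIntegrallyClosed R] (ϖ c : R) (hϖ : ϖ ≠ 0)
    (h : ∀ P ∈ (Ideal.span {ϖ}).minimalPrimes, ∃ s : R, s ∉ P ∧ s * c ∈ Ideal.span {ϖ}) :
    c ∈ Ideal.span {ϖ} := by
  classical
  by_contra hc
  have hx : (Ideal.Quotient.mk (Ideal.span {ϖ}) c) ≠ 0 := by
    rwa [Ne, Ideal.Quotient.eq_zero_iff_mem]
  obtain ⟨P, hP, hle⟩ := exists_le_isAssociatedPrime_of_isNoetherianRing R
    (M := R ⧸ Ideal.span {ϖ}) _ hx
  rw [isAssociatedPrime_iff] at hP
  obtain ⟨hPprime, y, hPy⟩ := hP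
  obtain ⟨d, rfl⟩ := Ideal.Quotient.mk_surjective y
  have hmem : ∀ r, r ∈ P ↔ ϖ ∣ r * d := by
    intro r
    rw [hPy, Submodule.mem_colon_singleton, Submodule.mem_bot, ← Ideal.mem_span_singleton,
      ← Ideal.Quotient.eq_zero_iff_mem, map_mul]
    rfl
  have := hPprime
  obtain ⟨s, hsP, hsc⟩ := h P (mem_minimalPrimes_of_colon ϖ d hϖ P hmem)
  apply hsP
  apply hle
  rw [Submodule.mem_colon_singleton, Submodule.mem_bot]
  show s • (Ideal.Quotient.mk (Ideal.span {ϖ}) c) = 0
  rw [← Ideal.Quotient.eq_zero_iff_mem, map_mul] at hsc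
  exact hsc

/-- **(RED)** If `P1`, `P2` are the only minimal primes over `(ϖ)` and `ϖ` generates `P_i` locally at
`P_i` (`e = 1`), then `P1 ⊓ P2 = (ϖ)`: the fibre `R/ϖ` is reduced. -/
theorem inf_eq_span_singleton {R : Type*} [CommRing R] [IsDomain R] [IsNoetherianRing R]
    [IsIntegrallyClosed R] (ϖ : R) (hϖ : ϖ ≠ 0) (P1 P2 : Ideal R) (h1 : ϖ ∈ P1) (h2 : ϖ ∈ P2)
    (hmin : ∀ P ∈ (Ideal.span {ϖ}).minimalPrimes, P = P1 ∨ P = P2)
    (he1 : ∀ c ∈ P1, ∃ s, s ∉ P1 ∧ s * c ∈ Ideal.span {ϖ})
    (he2 : ∀ c ∈ P2, ∃ s, s ∉ P2 ∧ s * c ∈ Ideal.span {ϖ}) :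
    P1 ⊓ P2 = Ideal.span {ϖ} := by
  apply le_antisymm
  · rintro c ⟨hc1, hc2⟩
    refine mem_span_singleton_of_forall_minimalPrimes ϖ c hϖ ?_
    intro P hP
    rcases hmin P hP with rfl | rfl
    · exact he1 c hc1
    · exact he2 c hc2
  · rw [Ideal.span_le, Set.singleton_subset_iff]
    exact ⟨h1, h2⟩

end Fermat.Agent.S34.H97
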