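import Mathlib

/-!
# One-component points are smooth (helper97; abstract core of M6a, Program B', S34)

`C` a chart of the semistable model, `P1`, `P2` the two components of its special fibre
(`P1 ⊓ P2 ≤ (ϖ)`), `x` a closed point lying on `P1` but not on `P2`.  If `x` is locally principal
modulo `P1` (`LocalGen P1 x`: true when `C/P1` is Dedekind, or when `C/P1 = S/ϖ` for a base `S` with
a local generator at `x ∩ S`), then in the local ring `T = C_x`: `P1 T = (ϖ)` is prime and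
`m_T = (ϖ, t)` with `t ∉ (ϖ)` — the local ring is regular with parameters `(ϖ, t)` and `T/ϖ` is a
discrete valuation ring (shape of `H36.PreNode.split_local`).  Mathlib only.
-/

set_option autoImplicit false

namespace Fermat.Agent.S34.H97

open Ideal

/-- `x` is locally (at `x`) generated by one element modulo `P1`. -/
def LocalGen {C : Type*} [CommRing C] (P1 x : Ideal C) : Prop :=
  ∃ t ∈ x, t ∉ P1 ∧ ∃ s : C, s ∉ x ∧ ∀ y ∈ x, ∃ c : C, s * y - t * c ∈ P1

/-- **(OC1)** the local structure at a point lying on exactly one component. -/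
theorem one_component_local {C : Type*} [CommRing C] (ϖ : C) (P1 P2 x : Ideal C) [hP1 : P1.IsPrime]
    [hx : x.IsPrime] (hinf : P1 ⊓ P2 ≤ Ideal.span {ϖ}) (hϖ1 : ϖ ∈ P1) (h1x : P1 ≤ x)
    (h2x : ¬ P2 ≤ x) (hLG : LocalGen P1 x) (T : Type*) [CommRing T] [Algebra C T]
    [IsLocalization.AtPrime T x] :
    Ideal.map (algebraMap C T) P1 = Ideal.span {algebraMap C T ϖ} ∧
    (Ideal.span {algebraMap C T ϖ}).IsPrime ∧
    ∃ t ∈ x, Ideal.map (algebraMap C T) x = Ideal.span {algebraMap C T ϖ, algebraMap C T t} ∧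
      algebraMap C T t ∉ Ideal.span {algebraMap C T ϖ} := by
  have hdisj : Disjoint (x.primeCompl : Set C) (P1 : Set C) := by
    rw [Set.disjoint_left]
    intro y hy hyP
    exact hy (h1x hyP)
  obtain ⟨s₂, hs₂P, hs₂x⟩ := SetLike.not_le_iff_exists.mp h2x
  obtain ⟨u₂, hu₂⟩ := IsLocalization.map_units T (⟨s₂, hs₂x⟩ : x.primeCompl)
  have hA : Ideal.map (algebraMap C T) P1 = Ideal.span {algebraMap C T ϖ} := by
    apply le_antisymm
    · rw [Ideal.map_le_iff_le_comap]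
      intro c hc
      have h1 : s₂ * c ∈ P1 ⊓ P2 := ⟨P1.mul_mem_left _ hc, P2.mul_mem_right _ hs₂P⟩
      obtain ⟨d, hd⟩ := Ideal.mem_span_singleton'.mp (hinf h1)
      rw [Ideal.mem_comap, Ideal.mem_span_singleton]
      refine ⟨algebraMap C T d * ((u₂⁻¹ : Tˣ) : T), ?_⟩
      have h2 : (u₂ : T) * algebraMap C T c = algebraMap C T d * algebraMap C T ϖ := by
        rw [hu₂, ← map_mul, ← map_mul, hd]
      calc algebraMap C T c = ((u₂⁻¹ : Tˣ) : T) * ((u₂ : T) * algebraMap C T c) := by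
            rw [← mul_assoc, Units.inv_mul, one_mul]
        _ = algebraMap C T ϖ * (algebraMap C T d * ((u₂⁻¹ : Tˣ) : T)) := by rw [h2]; ring
    · rw [Ideal.span_le, Set.singleton_subset_iff]
      exact Ideal.mem_map_of_mem _ hϖ1
  have hprime : (Ideal.span {algebraMap C T ϖ}).IsPrime := by
    rw [← hA]
    exact IsLocalization.isPrime_of_isPrime_disjoint x.primeCompl T P1 hP1 hdisj
  refine ⟨hA, hprime, ?_⟩
  obtain ⟨t, htx, htP, s, hsx, hs⟩ := hLG
  obtain ⟨u, hu⟩ := IsLocalization.map_units T (⟨s, hsx⟩ : x.primeCompl)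
  refine ⟨t, htx, ?_, ?_⟩
  · apply le_antisymm
    · rw [Ideal.map_le_iff_le_comap]
      intro y hy
      obtain ⟨c, hc⟩ := hs y hy
      have h1 : algebraMap C T (s * y - t * c) ∈ Ideal.span {algebraMap C T ϖ} := by
        rw [← hA]; exact Ideal.mem_map_of_mem _ hc
      obtain ⟨e, he⟩ := Ideal.mem_span_singleton.mp h1
      rw [Ideal.mem_comap, Ideal.mem_span_pair]
      refine ⟨e * ((u⁻¹ : Tˣ) : T), algebraMap C T c * ((u⁻¹ : Tˣ) : T), ?_⟩
      have h2 : (u : T) * algebraMap C T y = algebraMap C T t * algebraMap C T c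
          + algebraMap C T ϖ * e := by
        rw [← he, hu, map_sub, map_mul, map_mul]; ring
      calc e * ((u⁻¹ : Tˣ) : T) * algebraMap C T ϖ
            + algebraMap C T c * ((u⁻¹ : Tˣ) : T) * algebraMap C T t
          = ((u⁻¹ : Tˣ) : T) * (algebraMap C T t * algebraMap C T c + algebraMap C T ϖ * e) := by
            ring
        _ = ((u⁻¹ : Tˣ) : T) * ((u : T) * algebraMap C T y) := by rw [h2]
        _ = algebraMap C T y := by rw [← mul_assoc, Units.inv_mul, one_mul]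
    · rw [Ideal.span_le]
      rintro z (rfl | rfl)
      · exact Ideal.mem_map_of_mem _ (h1x hϖ1)
      · exact Ideal.mem_map_of_mem _ htx
  · rw [← hA]
    intro h
    have h3 : (P1.map (algebraMap C T)).comap (algebraMap C T) = P1 :=
      IsLocalization.under_map_of_isPrime_disjoint x.primeCompl T hP1 hdisj
    apply htP
    rw [← h3]
    exact Ideal.mem_comap.mpr h

/-- `LocalGen` from a base ring `S` with `C = S + P1`, `S ∩ P1 = ϖ S`, and a local generator of
`x ∩ S` (the shape of `H9.chart_max_gen`). -/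
theorem localGen_of_base {S C : Type*} [CommRing S] [CommRing C] [Algebra S C] (ϖ : S)
    (P1 x : Ideal C) [hP1 : P1.IsPrime]
    (hsurj : ∀ c : C, ∃ s₀ : S, c - algebraMap S C s₀ ∈ P1)
    (hcomap : ∀ s₀ : S, algebraMap S C s₀ ∈ P1 → ϖ ∣ s₀) (hϖP : algebraMap S C ϖ ∈ P1)
    (h1x : P1 ≤ x) (hne : ¬ x ≤ P1)
    (hgen : ∃ t₀ : S, algebraMap S C t₀ ∈ x ∧ ∃ s₀ : S, algebraMap S C s₀ ∉ x ∧
      ∀ y₀ : S, algebraMap S C y₀ ∈ x → ∃ c e : S, s₀ * y₀ = t₀ * c + ϖ * e) :
    LocalGen P1 x := by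
  obtain ⟨t₀, ht₀, s₀, hs₀, hgen⟩ := hgen
  -- decomposition of elements of `x`
  have hdec : ∀ y ∈ x, ∃ y₀ : S, algebraMap S C y₀ ∈ x ∧ y - algebraMap S C y₀ ∈ P1 := by
    intro y hy
    obtain ⟨y₀, hy₀⟩ := hsurj y
    refine ⟨y₀, ?_, hy₀⟩
    have : algebraMap S C y₀ = y - (y - algebraMap S C y₀) := by ring
    rw [this]
    exact x.sub_mem hy (h1x hy₀)
  refine ⟨algebraMap S C t₀, ht₀, ?_, algebraMap S C s₀, hs₀, ?_⟩
  · intro htP
    obtain ⟨d, hd⟩ := hcomap t₀ htP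
    obtain ⟨y, hyx, hyP⟩ := SetLike.not_le_iff_exists.mp hne
    obtain ⟨y₀, hy₀x, hy₀⟩ := hdec y hyx
    obtain ⟨c, e, hce⟩ := hgen y₀ hy₀x
    have h1 : algebraMap S C s₀ * algebraMap S C y₀ ∈ P1 := by
      have : s₀ * y₀ = ϖ * (d * c + e) := by rw [hce, hd]; ring
      rw [← map_mul, this, map_mul]
      exact P1.mul_mem_right _ hϖP
    rcases hP1.mem_or_mem h1 with h | h
    · exact hs₀ (h1x h)
    · apply hyP
      have : y = (y - algebraMap S C y₀) + algebraMap S C y₀ := by ring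
      rw [this]
      exact P1.add_mem hy₀ h
  · intro y hy
    obtain ⟨y₀, hy₀x, hy₀⟩ := hdec y hy
    obtain ⟨c, e, hce⟩ := hgen y₀ hy₀x
    refine ⟨algebraMap S C c, ?_⟩
    have h1 : algebraMap S C s₀ * y - algebraMap S C t₀ * algebraMap S C c
        = algebraMap S C s₀ * (y - algebraMap S C y₀) + algebraMap S C ϖ * algebraMap S C e := by
      have h2 : algebraMap S C s₀ * algebraMap S C y₀
          = algebraMap S C t₀ * algebraMap S C c + algebraMap S C ϖ * algebraMap S C e := by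
        rw [← map_mul, hce, map_add, map_mul, map_mul]
      linear_combination h2
    rw [h1]
    exact P1.add_mem (P1.mul_mem_left _ hy₀) (P1.mul_mem_right _ hϖP)

/-- `LocalGen` when `C/P1` is a Dedekind domain and `x` is a maximal ideal strictly above `P1`. -/
theorem localGen_of_dedekind {C : Type*} [CommRing C] (P1 x : Ideal C) [hx : x.IsMaximal]
    [IsDedekindDomain (C ⧸ P1)] (h1x : P1 ≤ x) (hne : ¬ x ≤ P1) : LocalGen P1 x := by
  classical
  have hπsurj : Function.Surjective (Ideal.Quotient.mk P1) := Ideal.Quotient.mk_surjective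
  have hmem : ∀ y : C, Ideal.Quotient.mk P1 y ∈ x.map (Ideal.Quotient.mk P1) ↔ y ∈ x :=
    fun y => Ideal.mem_quotient_iff_mem h1x
  have hmtop : x.map (Ideal.Quotient.mk P1) ≠ ⊤ := by
    intro h
    have h1 : Ideal.Quotient.mk P1 1 ∈ x.map (Ideal.Quotient.mk P1) := by rw [h]; trivial
    exact hx.ne_top ((Ideal.eq_top_iff_one _).mpr ((hmem 1).mp h1))
  have hmbot : x.map (Ideal.Quotient.mk P1) ≠ ⊥ := by
    obtain ⟨y, hyx, hyP⟩ := SetLike.not_le_iff_exists.mp hne
    intro h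
    have h1 : Ideal.Quotient.mk P1 y ∈ x.map (Ideal.Quotient.mk P1) := (hmem y).mpr hyx
    rw [h, Ideal.mem_bot, Ideal.Quotient.eq_zero_iff_mem] at h1
    exact hyP h1
  obtain ⟨τ, hτ1, hτ2⟩ :=
    Ideal.exists_mem_pow_notMem_pow_succ (x.map (Ideal.Quotient.mk P1)) hmbot hmtop 1
  rw [pow_one] at hτ1
  have hle : Ideal.span {τ} ≤ x.map (Ideal.Quotient.mk P1) := by
    rwa [Ideal.span_le, Set.singleton_subset_iff]
  obtain ⟨𝔞, h𝔞⟩ := Ideal.dvd_iff_le.mpr hle
  have h𝔞m : ¬ 𝔞 ≤ x.map (Ideal.Quotient.mk P1) := by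
    intro h
    apply hτ2
    have h2 : Ideal.span {τ} ≤ x.map (Ideal.Quotient.mk P1) ^ (1 + 1) := by
      rw [h𝔞, pow_succ, pow_one]
      exact Ideal.mul_mono_right h
    exact h2 (Ideal.mem_span_singleton_self τ)
  obtain ⟨σ, hσ𝔞, hσm⟩ := SetLike.not_le_iff_exists.mp h𝔞m
  obtain ⟨t, rfl⟩ := hπsurj τ
  obtain ⟨s, rfl⟩ := hπsurj σ
  refine ⟨t, (hmem t).mp hτ1, ?_, s, fun h => hσm ((hmem s).mpr h), ?_⟩
  · intro htP
    apply hτ2
    rw [Ideal.Quotient.eq_zero_iff_mem.mpr htP]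
    exact zero_mem _
  · intro y hy
    have h1 : Ideal.Quotient.mk P1 s * Ideal.Quotient.mk P1 y ∈
        Ideal.span {Ideal.Quotient.mk P1 t} := by
      rw [h𝔞, mul_comm (Ideal.Quotient.mk P1 s)]
      exact Ideal.mul_mem_mul ((hmem y).mpr hy) hσ𝔞
    obtain ⟨γ, hγ⟩ := Ideal.mem_span_singleton.mp h1
    obtain ⟨c, rfl⟩ := hπsurj γ
    refine ⟨c, ?_⟩
    rw [← Ideal.Quotient.eq_zero_iff_mem, map_sub, map_mul, map_mul, hγ, sub_self]

end Fermat.Agent.S34.H97
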