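import Fermat.Agent.S34.H97.OneComponent
import Fermat.Agent.S34.H36.Dichotomy

/-!
# One-component points: the special fibre of the local ring is a DVR (helper97; M6a, S34)

`one_component_local` + `H36.isDiscreteValuationRing_quotient`: at a closed point `x` of a
noetherian chart `C` lying on exactly one component `P1` of the special fibre (`P1 ⊓ P2 ≤ (ϖ)`,
`x` locally principal modulo `P1`), the local ring `T = C_x` has `T/ϖ` a discrete valuation ring.
-/

set_option autoImplicit false

namespace Fermat.Agent.S34.H97

open Ideal IsLocalRing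

/-- **(OC-DVR)** the special fibre of the local ring at a one-component point is a DVR. -/
theorem one_component_dvr {C : Type*} [CommRing C] [IsNoetherianRing C] (ϖ : C)
    (P1 P2 x : Ideal C) [hP1 : P1.IsPrime] [hx : x.IsMaximal]
    (hinf : P1 ⊓ P2 ≤ Ideal.span {ϖ}) (hϖ1 : ϖ ∈ P1) (h1x : P1 ≤ x)
    (h2x : ¬ P2 ≤ x) (hLG : LocalGen P1 x) (T : Type*) [CommRing T] [Algebra C T]
    [IsLocalization.AtPrime T x] :
    ∃ _ : IsDomain (T ⧸ Ideal.span {algebraMap C T ϖ}),
      IsDiscreteValuationRing (T ⧸ Ideal.span {algebraMap C T ϖ}) := by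
  obtain ⟨-, hprime, t, -, hmap, ht⟩ := one_component_local ϖ P1 P2 x hinf hϖ1 h1x h2x hLG T
  have : IsLocalRing T := IsLocalization.AtPrime.isLocalRing T x
  have : IsNoetherianRing T := IsLocalization.isNoetherianRing x.primeCompl T inferInstance
  refine Fermat.Agent.S34.H36.isDiscreteValuationRing_quotient (algebraMap C T ϖ)
    (algebraMap C T t) hprime ?_ ht
  rw [← hmap]
  exact (IsLocalization.AtPrime.map_eq_maximalIdeal x T).symm

end Fermat.Agent.S34.H97
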