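import Mathlib

/-!
# Saturation of the integral closure at the special fibre, without Krull (helper97; leaf (G5-RED), S34)

Mathlib-only supplier of
* the saturation hypothesis `hsat : ∀ y, y ∈ V₁ → y ∈ V₂ → ϖ • y ∈ C → y ∈ C` of the Step 2 package
  (`C = C[1/ϖ] ∩ V₁ ∩ V₂`), and
* `NodeHyp.inf_eq` (`P1 ⊓ P2 = (ϖ)`: the special fibre of the integral closure is reduced)

from the two-extension lemma (`integral_iff`: the integral closure of `V` in `L` is `O₁ ∩ O₂`; `unif`:
`e = 1`).  Setting: `S` an integrally closed domain with fraction field `K` (the level-`M` chart or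
its local ring), `V` a valuation subring of `K` containing `S` whose centre on `S` is `(ϖ)`, `L/K` a
field extension.  If `y ∈ L` is integral over `V` and `ϖ y` is integral over `S`, then `y` is
integral over `S`: the minimal polynomial of `y` over `K` has coefficients `c_k / ϖ^(n-k)` with
`c_k ∈ S`, and these lie in `V`, hence in `S`.
-/

set_option autoImplicit false

namespace Fermat.Agent.S34.H97

open Polynomial

theorem mul_mem_nonunits {K : Type*} [Field K] (V : ValuationSubring K) {a b : K} (ha : a ∈ V)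
    (hb : b ∈ V.nonunits) : a * b ∈ V.nonunits := by
  rw [ValuationSubring.mem_nonunits_iff] at hb ⊢
  rw [← ValuationSubring.valuation_le_one_iff] at ha
  rw [map_mul]
  calc V.valuation a * V.valuation b ≤ 1 * V.valuation b := mul_le_mul_left ha _
    _ = V.valuation b := one_mul _
    _ < 1 := hb

section Sat

variable {S K : Type*} [CommRing S] [IsDomain S] [Field K] [Algebra S K]

omit [IsDomain S] in
/-- If the centre of `V` on `S` is `(ϖ)`, then `S ∩ ϖ^j V = ϖ^j S`. -/
theorem pow_dvd_of_eq_mul_pow (hinj : Function.Injective (algebraMap S K))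
    (V : ValuationSubring K) (ϖ : S)
    (hϖ0 : ϖ ≠ 0) (hϖV : algebraMap S K ϖ ∈ V.nonunits)
    (hcenter : ∀ s : S, algebraMap S K s ∈ V.nonunits → ϖ ∣ s) :
    ∀ (j : ℕ) (c : S) (v : K), v ∈ V → algebraMap S K c = v * algebraMap S K ϖ ^ j → ϖ ^ j ∣ c := by
  have hϖK : algebraMap S K ϖ ≠ 0 := by
    simpa using hinj.ne hϖ0
  intro j
  induction j with
  | zero => intro c v _ _; simp
  | succ j ih =>
    intro c v hv hc
    have hmem : algebraMap S K c ∈ V.nonunits := by
      rw [hc, pow_succ, ← mul_assoc]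
      exact mul_mem_nonunits V
        (V.mul_mem _ _ hv (pow_mem (ValuationSubring.nonunits_subset hϖV) j)) hϖV
    obtain ⟨c', rfl⟩ := hcenter c hmem
    have hc' : algebraMap S K c' = v * algebraMap S K ϖ ^ j := by
      apply mul_left_cancel₀ hϖK
      rw [← map_mul, hc]; ring
    obtain ⟨d, rfl⟩ := ih c' v hv hc'
    exact ⟨d, by ring⟩

variable [IsIntegrallyClosed S] [IsFractionRing S K]
variable {L : Type*} [Field L] [Algebra K L] [Algebra S L] [IsScalarTower S K L]

/-- **(SAT)** `S` integrally closed with fraction field `K`, `V` a valuation subring of `K` containing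
`S` with centre `(ϖ)` on `S`, `y ∈ L` integral over `V` with `ϖ y` integral over `S`.  Then `y` is
integral over `S`. -/
theorem isIntegral_of_isIntegral_mul (V : ValuationSubring K) (ϖ : S) (hϖ0 : ϖ ≠ 0)
    (hϖV : algebraMap S K ϖ ∈ V.nonunits)
    (hcenter : ∀ s : S, algebraMap S K s ∈ V.nonunits → ϖ ∣ s)
    (y : L) (hyV : IsIntegral V y) (hy : IsIntegral S (algebraMap S L ϖ * y)) :
    IsIntegral S y := by
  have hinj : Function.Injective (algebraMap S K) := IsFractionRing.injective S K
  set ϖK : K := algebraMap S K ϖ with hϖKdef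
  have hϖK : ϖK ≠ 0 := by simpa [hϖKdef] using hinj.ne hϖ0
  have hyK : IsIntegral K y := hyV.tower_top
  set a : L := algebraMap S L ϖ * y with hadef
  have ha_eq : a = algebraMap K L ϖK * y := by
    rw [hadef, hϖKdef, ← IsScalarTower.algebraMap_apply]
  have haK : IsIntegral K a := hy.tower_top
  set p := minpoly K y with hpdef
  set pa := minpoly K a with hpadef
  have hp_monic : p.Monic := minpoly.monic hyK
  have hpa_monic : pa.Monic := minpoly.monic haK
  -- `pa ∣ scaleRoots p ϖK`
  have hdvd1 : pa ∣ p.scaleRoots ϖK := by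
    apply minpoly.dvd
    rw [ha_eq]
    exact scaleRoots_aeval_eq_zero (minpoly.aeval K y)
  -- `p ∣ scaleRoots pa ϖK⁻¹`
  have hdvd2 : p ∣ pa.scaleRoots ϖK⁻¹ := by
    apply minpoly.dvd
    have h := scaleRoots_aeval_eq_zero (r := ϖK⁻¹) (minpoly.aeval K a)
    have hy_eq : algebraMap K L ϖK⁻¹ * a = y := by
      rw [ha_eq, ← mul_assoc, ← map_mul, inv_mul_cancel₀ hϖK, map_one, one_mul]
    rwa [hy_eq] at h
  have hdeg : p.natDegree ≤ pa.natDegree := by
    have h := natDegree_le_of_dvd hdvd2 ((monic_scaleRoots_iff _).mpr hpa_monic).ne_zero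
    rwa [natDegree_scaleRoots] at h
  have hscale : p.scaleRoots ϖK = pa :=
    eq_of_monic_of_dvd_of_natDegree_le hpa_monic ((monic_scaleRoots_iff _).mpr hp_monic) hdvd1
      (by rw [natDegree_scaleRoots]; exact hdeg)
  -- coefficients
  have hpV : p = (minpoly V y).map (algebraMap V K) :=
    minpoly.isIntegrallyClosed_eq_field_fractions' K hyV
  have hpaS : pa = (minpoly S a).map (algebraMap S K) :=
    minpoly.isIntegrallyClosed_eq_field_fractions' K hy
  have hcoeff : ∀ k : ℕ, p.coeff k ∈ Set.range (algebraMap S K) := by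
    intro k
    have h1 : algebraMap S K ((minpoly S a).coeff k) = p.coeff k * ϖK ^ (p.natDegree - k) := by
      rw [← coeff_map, ← hpaS, ← hscale, coeff_scaleRoots]
    have hvk : p.coeff k ∈ V := by
      rw [hpV, coeff_map]
      exact ((minpoly V y).coeff k).2
    obtain ⟨s, hs⟩ := pow_dvd_of_eq_mul_pow hinj V ϖ hϖ0 hϖV hcenter _ _ _ hvk h1
    refine ⟨s, ?_⟩
    have h2 : algebraMap S K s * ϖK ^ (p.natDegree - k) = p.coeff k * ϖK ^ (p.natDegree - k) := by
      rw [← h1, hs, map_mul, map_pow]; ring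
    exact mul_right_cancel₀ (pow_ne_zero _ hϖK) h2
  obtain ⟨Q, hQmap, -, hQmonic⟩ :=
    lifts_and_natDegree_eq_and_monic ((lifts_iff_coeff_lifts p).mpr hcoeff) hp_monic
  refine ⟨Q, hQmonic, ?_⟩
  have h3 : aeval y (Q.map (algebraMap S K)) = 0 := by rw [hQmap]; exact minpoly.aeval K y
  rwa [aeval_map_algebraMap, aeval_def] at h3

/-- Saturation in the two-extension setting: if the integral closure of `V` in `L` contains
`O₁ ∩ O₂` (`TwoExt.integral_iff`), then an element of `O₁ ∩ O₂` whose `ϖ`-multiple is integral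
over `S` is integral over `S`.  With `C` = the integral closure of `S` in `L` this is
`hsat : y ∈ O₁ → y ∈ O₂ → ϖ • y ∈ C → y ∈ C`. -/
theorem isIntegral_of_mem_of_isIntegral_mul (V : ValuationSubring K) (O₁ O₂ : ValuationSubring L)
    (hint : ∀ g : L, g ∈ O₁ → g ∈ O₂ → IsIntegral V g) (ϖ : S) (hϖ0 : ϖ ≠ 0)
    (hϖV : algebraMap S K ϖ ∈ V.nonunits)
    (hcenter : ∀ s : S, algebraMap S K s ∈ V.nonunits → ϖ ∣ s)
    (y : L) (hy₁ : y ∈ O₁) (hy₂ : y ∈ O₂) (hy : IsIntegral S (algebraMap S L ϖ * y)) :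
    IsIntegral S y :=
  isIntegral_of_isIntegral_mul V ϖ hϖ0 hϖV hcenter y (hint y hy₁ hy₂) hy

/-- **Reducedness of the special fibre of the integral closure** (`NodeHyp.inf_eq`, elementwise):
`R` the integral closure of `S` in `L`; if `r ∈ R` lies in both maximal ideals `m(O₁)`, `m(O₂)`,
where `ϖ` generates both (`e = 1`) and `O₁ ∩ O₂` is integral over `V`, then `ϖ ∣ r` in `R`. -/
theorem dvd_of_mem_nonunits_of_twoExt {R : Type*} [CommRing R] [Algebra S R] [Algebra R L]
    [IsScalarTower S R L] [IsIntegralClosure R S L]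
    (V : ValuationSubring K) (O₁ O₂ : ValuationSubring L)
    (hint : ∀ g : L, g ∈ O₁ → g ∈ O₂ → IsIntegral V g) (ϖ : S) (hϖ0 : ϖ ≠ 0)
    (hϖV : algebraMap S K ϖ ∈ V.nonunits)
    (hcenter : ∀ s : S, algebraMap S K s ∈ V.nonunits → ϖ ∣ s)
    (hunif₁ : ∀ g ∈ O₁.nonunits, g / algebraMap S L ϖ ∈ O₁)
    (hunif₂ : ∀ g ∈ O₂.nonunits, g / algebraMap S L ϖ ∈ O₂)
    (r : R) (h₁ : algebraMap R L r ∈ O₁.nonunits) (h₂ : algebraMap R L r ∈ O₂.nonunits) :
    algebraMap S R ϖ ∣ r := by
  have hinj : Function.Injective (algebraMap S K) := IsFractionRing.injective S K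
  have hϖK : algebraMap S K ϖ ≠ 0 := fun h => hϖ0 (hinj (by rw [h, map_zero]))
  have hϖL : algebraMap S L ϖ ≠ 0 := by
    rw [IsScalarTower.algebraMap_apply S K L]
    exact fun h => hϖK ((algebraMap K L).injective (by rw [h, map_zero]))
  set y : L := algebraMap R L r / algebraMap S L ϖ with hydef
  have hmul : algebraMap S L ϖ * y = algebraMap R L r := by
    rw [hydef, mul_div_cancel₀ _ hϖL]
  have hyint : IsIntegral S y := by
    refine isIntegral_of_mem_of_isIntegral_mul V O₁ O₂ hint ϖ hϖ0 hϖV hcenter y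
      (hunif₁ _ h₁) (hunif₂ _ h₂) ?_
    rw [hmul]
    exact IsIntegralClosure.isIntegral_iff (A := R) |>.mpr ⟨r, rfl⟩
  obtain ⟨r', hr'⟩ := IsIntegralClosure.isIntegral_iff (A := R) |>.mp hyint
  refine ⟨r', ?_⟩
  apply IsIntegralClosure.algebraMap_injective R S L
  rw [map_mul, hr', ← IsScalarTower.algebraMap_apply, hmul]

end Sat

end Fermat.Agent.S34.H97
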